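/-
[UNR] = S31 from the Tate package (helper19).  Leaf (U4): transport of `p`-adic smallness along a
ring homomorphism defined on a subalgebra of an endomorphism ring (Artin-Rees).

* `ur_ar_coord_mem`  : coordinates of an element of `I • ⊤` lie in `I`;
* `ur_ar_small_mem`  : an endomorphism `f` of a finite free module with `f(M) ⊆ I M` lies in
                       `I • End(M)`;
* `ur_ar_transport`  : `C ⊆ End_O(M)` a subalgebra, `lam : C →+* T'` a ring hom to a local ring
                       mapping `𝔪_O` into `𝔪_{T'}`: for every `n` there is `m` such that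
                       `c ∈ C`, `c(M) ⊆ 𝔪^m M` implies `lam c ∈ 𝔪_{T'}^n`.
Prefix `ur_ar_`.
-/
import Fermat.Agent.JT3.Algebra.GoodClosure

set_option autoImplicit false

namespace Fermat.Agent.JT3

open IsLocalRing

section coord

variable {O : Type*} [CommRing O] {M : Type*} [AddCommGroup M] [Module O M]

theorem ur_ar_coord_mem {ι : Type*} (b : Module.Basis ι O M) (I : Ideal O) {x : M}
    (hx : x ∈ I • (⊤ : Submodule O M)) (i : ι) : b.repr x i ∈ I := by
  have h1 : (b.coord i) x ∈ (I • (⊤ : Submodule O M)).map (b.coord i) :=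
    Submodule.mem_map_of_mem hx
  rw [Submodule.map_smul''] at h1
  have h2 : I • (Submodule.map (b.coord i) ⊤) ≤ I • (⊤ : Submodule O O) :=
    Submodule.smul_mono le_rfl le_top
  have h3 := h2 h1
  rw [smul_eq_mul, Ideal.mul_top] at h3
  exact h3

variable [Module.Free O M] [Module.Finite O M]

theorem ur_ar_small_mem (I : Ideal O) (f : Module.End O M) (hf : gcl_Small I f) :
    f ∈ I • (⊤ : Submodule O (Module.End O M)) := by
  classical
  let b := Module.Free.chooseBasis O M
  have key : f = ∑ j, ∑ i, b.repr (f (b j)) i • ((b.coord j).smulRight (b i)) := by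
    refine b.ext fun j' => ?_
    rw [LinearMap.sum_apply]
    simp only [LinearMap.sum_apply, LinearMap.smul_apply, LinearMap.smulRight_apply,
      Module.Basis.coord_apply, Module.Basis.repr_self]
    rw [Finset.sum_eq_single j']
    · simp only [Finsupp.single_eq_same, one_smul]
      exact (b.sum_repr (f (b j'))).symm
    · intro j _ hj
      refine Finset.sum_eq_zero fun i _ => ?_
      rw [Finsupp.single_eq_of_ne hj, zero_smul, smul_zero]
    · intro h
      exact absurd (Finset.mem_univ j') h
  rw [key]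
  refine Submodule.sum_mem _ fun j _ => Submodule.sum_mem _ fun i _ => ?_
  exact Submodule.smul_mem_smul (ur_ar_coord_mem b I (hf (b j)) i) Submodule.mem_top

end coord

section transport

variable {O : Type*} [CommRing O] [IsLocalRing O] [IsNoetherianRing O]
  {M : Type*} [AddCommGroup M] [Module O M] [Module.Free O M] [Module.Finite O M]

theorem ur_ar_transport (C : Subalgebra O (Module.End O M)) {T' : Type*} [CommRing T']
    [IsLocalRing T'] (lam : ↥C →+* T')
    (hlam : ∀ x ∈ maximalIdeal O, lam (algebraMap O ↥C x) ∈ maximalIdeal T') (n : ℕ) :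
    ∃ m : ℕ, ∀ c : ↥C, gcl_Small (maximalIdeal O ^ m) (c : Module.End O M) →
      lam c ∈ maximalIdeal T' ^ n := by
  obtain ⟨k, hk⟩ := Ideal.exists_pow_inf_eq_pow_smul (maximalIdeal O)
    (Subalgebra.toSubmodule C)
  refine ⟨n + k, fun c hc => ?_⟩
  -- the submodule of elements of `C` mapped into `𝔪 ^ n`
  let K : Submodule O (Module.End O M) :=
    { carrier := {z | ∃ hz : z ∈ C, lam ⟨z, hz⟩ ∈ maximalIdeal T' ^ n}
      add_mem' := by
        rintro x y ⟨hx, hx'⟩ ⟨hy, hy'⟩
        refine ⟨C.add_mem hx hy, ?_⟩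
        have : (⟨x + y, C.add_mem hx hy⟩ : ↥C) = ⟨x, hx⟩ + ⟨y, hy⟩ := rfl
        rw [this, map_add]
        exact Ideal.add_mem _ hx' hy'
      zero_mem' := by
        refine ⟨C.zero_mem, ?_⟩
        have : (⟨0, C.zero_mem⟩ : ↥C) = 0 := rfl
        rw [this, map_zero]
        exact Ideal.zero_mem _
      smul_mem' := by
        rintro a x ⟨hx, hx'⟩
        refine ⟨C.smul_mem hx a, ?_⟩
        have : (⟨a • x, C.smul_mem hx a⟩ : ↥C) = algebraMap O ↥C a * ⟨x, hx⟩ := by
          rw [← Algebra.smul_def]
          rfl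
        rw [this, map_mul]
        exact Ideal.mul_mem_left _ _ hx' }
  -- powers of the maximal ideal are mapped into powers of the maximal ideal
  have hpow : ∀ a ∈ maximalIdeal O ^ n, lam (algebraMap O ↥C a) ∈ maximalIdeal T' ^ n := by
    intro a ha
    have h1 : (maximalIdeal O ^ n).map (lam.comp (algebraMap O ↥C)) ≤ maximalIdeal T' ^ n := by
      rw [Ideal.map_pow]
      refine Ideal.pow_right_mono (Ideal.map_le_iff_le_comap.2 fun x hx => ?_) n
      exact hlam x hx
    exact h1 (Ideal.mem_map_of_mem _ ha)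
  have hle : maximalIdeal O ^ n •
      (maximalIdeal O ^ k • (⊤ : Submodule O (Module.End O M)) ⊓ Subalgebra.toSubmodule C) ≤ K := by
    rw [Submodule.smul_le]
    intro a ha z hz
    have hzC : z ∈ C := hz.2
    refine ⟨C.smul_mem hzC a, ?_⟩
    have : (⟨a • z, C.smul_mem hzC a⟩ : ↥C) = algebraMap O ↥C a * ⟨z, hzC⟩ := by
      rw [← Algebra.smul_def]
      rfl
    rw [this, map_mul]
    exact Ideal.mul_mem_right _ _ (hpow a ha)
  have hmem : (c : Module.End O M) ∈
      maximalIdeal O ^ (n + k) • (⊤ : Submodule O (Module.End O M)) ⊓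
        Subalgebra.toSubmodule C :=
    ⟨ur_ar_small_mem _ _ hc, c.2⟩
  rw [hk (n + k) (Nat.le_add_left k n), Nat.add_sub_cancel] at hmem
  obtain ⟨hz, hz'⟩ := hle hmem
  exact hz'

end transport

end Fermat.Agent.JT3
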