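import Mathlib
import Fermat.Agent.JT3.Algebra.GoodClosure

/-!
# [UNR] (S31) leaf (U2): traces of powers in rank two, and traces of small endomorphisms
(prefix `ur_lt_`)

* `ur_lt_trace_pow`   : if `f` has characteristic polynomial `X² - a X + e` on a free module of
  rank two then `tr (f ^ k) = V_k(a, e)` (the Lucas sequence `gcl_luc`);
* `ur_lt_trace_small` : if `f` maps `V` into `I • V` then `tr f ∈ I`.
-/

set_option autoImplicit false

namespace Fermat.Agent.JT3

open Polynomial

section

variable {T : Type*} [CommRing T] {V : Type*} [AddCommGroup V] [Module T V]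
  [Module.Free T V] [Module.Finite T V]

/-- the trace of an endomorphism of a rank two free module from its characteristic polynomial -/
theorem ur_lt_trace_eq [Nontrivial T] (h2 : Module.finrank T V = 2) (f : Module.End T V) (a e : T)
    (hf : f.charpoly = X ^ 2 - C a * X + C e) : LinearMap.trace T V f = a := by
  classical
  set b := Module.Free.chooseBasis T V with hb
  have hcard : Fintype.card (Module.Free.ChooseBasisIndex T V) = 2 := by
    rw [← Module.finrank_eq_card_chooseBasisIndex, h2]
  haveI : Nonempty (Module.Free.ChooseBasisIndex T V) := by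
    rw [← Fintype.card_pos_iff, hcard]; norm_num
  rw [LinearMap.trace_eq_matrix_trace T b, Matrix.trace_eq_neg_charpoly_coeff,
    LinearMap.charpoly_toMatrix, hcard, hf]
  simp [coeff_C]

/-- the Cayley–Hamilton recursion for the powers of `f` -/
theorem ur_lt_pow_succ_succ (f : Module.End T V) (a e : T)
    (hf : f.charpoly = X ^ 2 - C a * X + C e) (k : ℕ) :
    f ^ (k + 2) = a • f ^ (k + 1) - e • f ^ k := by
  have h := LinearMap.aeval_self_charpoly f
  rw [hf] at h
  simp only [map_add, map_sub, map_mul, map_pow, aeval_X, aeval_C] at h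
  have h1 : f ^ 2 = a • f - e • 1 := by
    rw [Algebra.algebraMap_eq_smul_one, Algebra.algebraMap_eq_smul_one, smul_mul_assoc,
      one_mul] at h
    rw [← sub_eq_zero, ← h]
    abel
  rw [pow_add, h1, mul_sub, mul_smul_comm, mul_smul_comm, mul_one, pow_succ]

/-- **(U2)(1)**: `tr (f ^ k) = V_k(a, e)` in rank two. -/
theorem ur_lt_trace_pow [Nontrivial T] (h2 : Module.finrank T V = 2) (f : Module.End T V)
    (a e : T) (hf : f.charpoly = X ^ 2 - C a * X + C e) (k : ℕ) :
    LinearMap.trace T V (f ^ k) = gcl_luc a e k := by
  induction k using Nat.strong_induction_on with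
  | _ k ih =>
    match k, ih with
    | 0, _ =>
      rw [pow_zero, LinearMap.trace_one, h2, gcl_luc]
      norm_num
    | 1, _ =>
      rw [pow_one, gcl_luc]
      exact ur_lt_trace_eq h2 f a e hf
    | (k + 2), ih =>
      rw [ur_lt_pow_succ_succ f a e hf k, map_sub, map_smul, map_smul, ih (k + 1) (by omega),
        ih k (by omega), gcl_luc, smul_eq_mul, smul_eq_mul]

/-- **(U2)(2)**: an endomorphism with image in `I • V` has trace in `I`. -/
theorem ur_lt_trace_small (I : Ideal T) (f : Module.End T V)
    (h : ∀ v, f v ∈ I • (⊤ : Submodule T V)) : LinearMap.trace T V f ∈ I := by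
  classical
  set b := Module.Free.chooseBasis T V with hb
  rw [LinearMap.trace_eq_matrix_trace T b, Matrix.trace]
  refine Ideal.sum_mem I (fun i _ => ?_)
  rw [Matrix.diag_apply, LinearMap.toMatrix_apply]
  have key : ∀ v ∈ I • (⊤ : Submodule T V), ∀ j, b.repr v j ∈ I := by
    intro v hv j
    refine Submodule.smul_induction_on (p := fun v => b.repr v j ∈ I) hv (fun r hr n _ => ?_)
      (fun x y hx hy => ?_)
    · show b.repr (r • n) j ∈ I
      rw [map_smul, Finsupp.smul_apply, smul_eq_mul]
      exact I.mul_mem_right _ hr
    · show b.repr (x + y) j ∈ I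
      rw [map_add, Finsupp.add_apply]
      exact I.add_mem hx hy
  exact key _ (h _) i

end

end Fermat.Agent.JT3
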