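/-
[UNR] = S31 from the Tate package (helper19).  Leaf: the Lucas sequence in an arbitrary ring.

* `ur_luc a e k`        : `V_0 = 2`, `V_1 = a`, `V_{k+2} = a V_{k+1} - e V_k` in any ring;
* `ur_luc_inv`          : if `x y = y x = 1` and `e` is central then
                          `V_k (x + e y, e) = x ^ k + e ^ k y ^ k`;
* `ur_luc_map`          : ring homomorphisms commute with `ur_luc`;
* `ur_luc_mem`          : subrings / subalgebras are stable under `ur_luc`.
Prefix `ur_`.
-/
import Mathlib

set_option autoImplicit false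

namespace Fermat.Agent.JT3

section luc

variable {R : Type*} [Ring R]

/-- The Lucas sequence `V_k(a, e)` in an arbitrary ring. -/
def ur_luc (a e : R) : ℕ → R
  | 0 => 2
  | 1 => a
  | (k + 2) => a * ur_luc a e (k + 1) - e * ur_luc a e k

@[simp] theorem ur_luc_zero (a e : R) : ur_luc a e 0 = 2 := rfl

@[simp] theorem ur_luc_one (a e : R) : ur_luc a e 1 = a := rfl

theorem ur_luc_succ_succ (a e : R) (k : ℕ) :
    ur_luc a e (k + 2) = a * ur_luc a e (k + 1) - e * ur_luc a e k := rfl

/-- `V_k (x + e y, e) = x ^ k + e ^ k y ^ k` when `y` is a two-sided inverse of `x` and `e`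
commutes with `x` and `y`. -/
theorem ur_luc_inv {x y e : R} (hxy : x * y = 1) (hyx : y * x = 1) (hex : Commute e x)
    (hey : Commute e y) (k : ℕ) : ur_luc (x + e * y) e k = x ^ k + e ^ k * y ^ k := by
  induction k using Nat.twoStepInduction with
  | zero => simp only [ur_luc_zero, pow_zero, mul_one]; exact one_add_one_eq_two.symm
  | one => simp only [ur_luc_one, pow_one]
  | more k ih0 ih1 =>
    rw [ur_luc_succ_succ, ih0, ih1]
    have hxyc : Commute x y := by
      show x * y = y * x
      rw [hxy, hyx]
    have h1 : y * x ^ (k + 1) = x ^ k := by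
      rw [pow_succ', ← mul_assoc, hyx, one_mul]
    have h2 : x * y ^ (k + 1) = y ^ k := by
      rw [pow_succ', ← mul_assoc, hxy, one_mul]
    have hek : ∀ j : ℕ, Commute (e ^ j) x := fun j => hex.pow_left j
    have hek' : ∀ j : ℕ, Commute (e ^ j) y := fun j => hey.pow_left j
    calc (x + e * y) * (x ^ (k + 1) + e ^ (k + 1) * y ^ (k + 1)) - e * (x ^ k + e ^ k * y ^ k)
        = x * x ^ (k + 1) + e * (y * x ^ (k + 1)) + x * (e ^ (k + 1) * y ^ (k + 1)) +
            e * y * (e ^ (k + 1) * y ^ (k + 1)) - e * x ^ k - e * (e ^ k * y ^ k) := by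
          noncomm_ring
      _ = x ^ (k + 2) + e ^ (k + 2) * y ^ (k + 2) := by
          rw [h1]
          have h3 : x * (e ^ (k + 1) * y ^ (k + 1)) = e * (e ^ k * y ^ k) := by
            rw [← mul_assoc, ← (hek (k + 1)).eq, mul_assoc, h2, pow_succ' e k, mul_assoc]
          have h4 : e * y * (e ^ (k + 1) * y ^ (k + 1)) = e ^ (k + 2) * y ^ (k + 2) := by
            rw [mul_assoc e y, ← mul_assoc y, ← (hek' (k + 1)).eq, mul_assoc (e ^ (k + 1)) y,
              ← pow_succ' y (k + 1), ← mul_assoc, ← pow_succ' e (k + 1)]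
          rw [h3, h4, ← pow_succ' x (k + 1)]
          abel

/-- Ring homomorphisms commute with the Lucas sequence. -/
theorem ur_luc_map {R' : Type*} [Ring R'] (f : R →+* R') (a e : R) (k : ℕ) :
    f (ur_luc a e k) = ur_luc (f a) (f e) k := by
  induction k using Nat.twoStepInduction with
  | zero => simp only [ur_luc_zero, map_ofNat]
  | one => simp only [ur_luc_one]
  | more k ih0 ih1 => rw [ur_luc_succ_succ, ur_luc_succ_succ, map_sub, map_mul, map_mul, ih0, ih1]

/-- Subrings are stable under the Lucas sequence. -/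
theorem ur_luc_mem {S : Type*} [SetLike S R] [SubringClass S R] (B : S) {a e : R} (ha : a ∈ B)
    (he : e ∈ B) (k : ℕ) : ur_luc a e k ∈ B := by
  induction k using Nat.twoStepInduction with
  | zero =>
    rw [ur_luc_zero, ← one_add_one_eq_two]
    exact add_mem (one_mem B) (one_mem B)
  | one => exact ha
  | more k ih0 ih1 =>
    rw [ur_luc_succ_succ]
    exact sub_mem (mul_mem ha ih1) (mul_mem he ih0)

end luc

end Fermat.Agent.JT3
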