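/-
[UNR] = S31 from the Tate package (helper19).  Leaf (U3): the Hecke-valued trace on the Tate side.

For a representation `ρ : G →* End_O M` and a character `ε : G →* O` put
`ur_w ρ ε g := ρ g + ε g • ρ g⁻¹` (the only possible `t` with `ρ(g)² - t ρ(g) + ε(g) = 0`).
* `ur_w_frob_pow` : if `ρ(φ)² - a ρ(φ) + e = 0` and `ε φ = e` then
                    `ur_w ρ ε (φ ^ k) = V_k(a, e)` (Lucas sequence in `End_O M`);
* `ur_w_congr`    : `ur_w ρ ε (g * δ) ≡ ur_w ρ ε g` modulo `I` when `ρ δ ≡ 1`, `ρ δ⁻¹ ≡ 1`,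
                    `ε δ ≡ 1` modulo `I`.
Prefix `ur_`.
-/
import Fermat.Agent.JT3.Unram.Luc
import Fermat.Agent.JT3.Algebra.GoodClosure

set_option autoImplicit false

namespace Fermat.Agent.JT3

/-- In a commutative ring `ur_luc` is helper9's `gcl_luc`. -/
theorem ur_luc_eq_gcl {O : Type*} [CommRing O] (a e : O) (k : ℕ) :
    ur_luc a e k = gcl_luc a e k := by
  induction k using Nat.twoStepInduction with
  | zero => rfl
  | one => rfl
  | more k ih0 ih1 =>
    rw [ur_luc_succ_succ, ih0, ih1]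
    rfl

section tate

variable {O : Type*} [CommRing O] {M : Type*} [AddCommGroup M] [Module O M]
  {G : Type*} [Group G]

/-- The Hecke-valued trace `ρ g + ε g • ρ g⁻¹`. -/
def ur_w (ρ : G →* Module.End O M) (ε : G →* O) (g : G) : Module.End O M :=
  ρ g + ε g • ρ g⁻¹

theorem ur_w_frob_pow (ρ : G →* Module.End O M) (ε : G →* O) (φ : G) (a : Module.End O M)
    (e : O) (hε : ε φ = e)
    (h : ρ φ * ρ φ - a * ρ φ + e • (1 : Module.End O M) = 0) (k : ℕ) :
    ur_w ρ ε (φ ^ k) = ur_luc a (e • (1 : Module.End O M)) k := by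
  have hxy : ρ φ * ρ φ⁻¹ = 1 := by rw [← map_mul, mul_inv_cancel, map_one]
  have hyx : ρ φ⁻¹ * ρ φ = 1 := by rw [← map_mul, inv_mul_cancel, map_one]
  have hcomm : ∀ z : Module.End O M, Commute (e • (1 : Module.End O M)) z := fun z => by
    show e • (1 : Module.End O M) * z = z * e • (1 : Module.End O M)
    rw [smul_mul_assoc, one_mul, mul_smul_comm, mul_one]
  -- `a = ρ φ + e • ρ φ⁻¹`
  have ha : a = ρ φ + e • (1 : Module.End O M) * ρ φ⁻¹ := by
    have h1 : (ρ φ * ρ φ - a * ρ φ + e • (1 : Module.End O M)) * ρ φ⁻¹ = 0 := by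
      rw [h, zero_mul]
    rw [add_mul, sub_mul, mul_assoc, mul_assoc, hxy, mul_one, mul_one] at h1
    have h2 : a = ρ φ + e • (1 : Module.End O M) * ρ φ⁻¹ - (ρ φ - a + e • 1 * ρ φ⁻¹) := by abel
    rw [h2, h1, sub_zero]
  have h3 := ur_luc_inv hxy hyx (hcomm (ρ φ)) (hcomm (ρ φ⁻¹)) k
  rw [← ha] at h3
  rw [h3]
  unfold ur_w
  rw [map_pow, map_pow, hε, ← inv_pow, map_pow, smul_pow, one_pow, smul_mul_assoc, one_mul]

theorem ur_w_congr (I : Ideal O) (ρ : G →* Module.End O M) (ε : G →* O) (g δ : G)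
    (h1 : gcl_Small I (ρ δ - 1)) (h2 : gcl_Small I (ρ δ⁻¹ - 1)) (h3 : ε δ - 1 ∈ I) :
    gcl_Small I (ur_w ρ ε (g * δ) - ur_w ρ ε g) := by
  have key : ur_w ρ ε (g * δ) - ur_w ρ ε g =
      ρ g * (ρ δ - 1) +
        ε g • ((ε δ - 1) • (ρ δ⁻¹ * ρ g⁻¹) + (ρ δ⁻¹ - 1) * ρ g⁻¹) := by
    unfold ur_w
    rw [mul_inv_rev, map_mul, map_mul, map_mul]
    simp only [mul_sub, sub_mul, mul_one, one_mul, sub_smul, one_smul, smul_add, smul_sub,
      mul_smul]
    abel
  rw [key]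
  exact (h1.mul_left _).add
    (((gcl_Small.smul_of_mem h3 _).add (h2.mul_right _)).smul _)

end tate

end Fermat.Agent.JT3
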