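import Mathlib
import Fermat.Prelude.Def_GaloisRep_Adic
import Fermat.Agent.JT3.Algebra.QuadGroup

/-!
# [UNR] (U1): trace rigidity (Burnside–Nakayama)

For a rank-2 representation `ρ` of `Gal(Q̄/ℚ)` over a local ring `T` whose residual representation
is absolutely irreducible:

* `ur_tr_span_eq_top` : the operators `ρ(g)` span `End_T(V)` over `T`;
* `ur_tr_eq_one` : if `tr ρ(g τ) = tr ρ(g)` for every `g`, then `ρ(τ) = 1`.

The generic engine `ur_tr_span_top_of_map` is a determinant form of Nakayama's lemma: a subset of a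
finite free module over `R` spans as soon as its image spans after a local homomorphism `R → K` to
a field.
-/

namespace Fermat.Agent.JT3

open Module

section generic

variable {R K : Type*} [CommRing R] [Field K] (φ : R →+* K) [IsLocalHom φ]
  {ι : Type*} [Fintype ι] [DecidableEq ι]
  {M M' : Type*} [AddCommGroup M] [Module R M] [AddCommGroup M'] [Module K M']

/-- **Determinant form of Nakayama.** `M` free over `R` with basis `e`, `M'` a `K`-space with basis
`e'`, `Φ : M → M'` a map which is `φ` on coordinates, `φ : R → K` a local homomorphism to a field.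
A subset `S` of `M` whose image spans `M'` spans `M`. -/
theorem ur_tr_span_top_of_map (e : Basis ι R M) (e' : Basis ι K M') (Φ : M → M')
    (hΦ : ∀ m i, e'.repr (Φ m) i = φ (e.repr m i)) (S : Set M)
    (hS : Submodule.span K (Φ '' S) = ⊤) : Submodule.span R S = ⊤ := by
  classical
  -- a basis of `M'` inside `Φ '' S`
  let b0 := Basis.ofSpan (K := K) (s := Φ '' S) hS.ge
  have hb0 : ∀ x, b0 x ∈ Φ '' S := fun x => Basis.ofSpan_subset hS.ge ⟨x, rfl⟩
  let eq : ι ≃ _ := e'.indexEquiv b0
  let b1 : Basis ι K M' := b0.reindex eq.symm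
  have hb1 : ∀ i, ∃ s ∈ S, Φ s = b1 i := by
    intro i
    have h := hb0 (eq i)
    obtain ⟨s, hs, hs'⟩ := h
    refine ⟨s, hs, ?_⟩
    rw [hs']
    simp [b1]
  choose v hvS hv using hb1
  -- the determinant of `v` maps to the determinant of `b1`
  have hdet : φ (e.det v) = e'.det b1 := by
    rw [Basis.det_apply, Basis.det_apply, RingHom.map_det]
    congr 1
    ext i j
    rw [RingHom.mapMatrix_apply, Matrix.map_apply, Basis.toMatrix_apply, Basis.toMatrix_apply,
      ← hΦ, hv]
  have hunit : IsUnit (e.det v) := by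
    have h1 : IsUnit (e'.det b1) := e'.isUnit_det b1
    rw [← hdet] at h1
    exact isUnit_of_map_unit φ _ h1
  have hspan := ((Basis.is_basis_iff_det e).2 hunit).2
  rw [eq_top_iff, ← hspan]
  apply Submodule.span_mono
  rintro _ ⟨i, rfl⟩
  exact hvS i

end generic

section rep

open scoped TensorProduct

variable {T : Type} [CommRing T] [IsLocalRing T]

/-- Coordinates of an endomorphism of a module with a basis indexed by `n`: the entries of its
matrix, as a function on `n × n`. -/
noncomputable def ur_tr_coord {A : Type*} [CommRing A] {n : Type*} [Fintype n] [DecidableEq n]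
    {W : Type*} [AddCommGroup W] [Module A W] (b : Basis n A W) :
    Module.End A W ≃ₗ[A] (n × n → A) :=
  (LinearMap.toMatrix b b).trans (LinearEquiv.curry A A n n).symm

theorem ur_tr_coord_apply {A : Type*} [CommRing A] {n : Type*} [Fintype n] [DecidableEq n]
    {W : Type*} [AddCommGroup W] [Module A W] (b : Basis n A W) (f : Module.End A W) (i j : n) :
    ur_tr_coord b f (i, j) = LinearMap.toMatrix b b f i j := rfl

/-- **Burnside–Nakayama**: if the residual representation of `ρ` is absolutely irreducible, the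
operators `ρ(g)` span `End_T(V)` as a `T`-module. -/
theorem ur_tr_span_eq_top (ρ : GaloisRepAdic T)
    (habs : ρ.residual.IsAbsolutelyIrreducible) :
    Submodule.span T (Set.range ρ.ρ) = ⊤ := by
  classical
  let k := IsLocalRing.ResidueField T
  let kb := AlgebraicClosure k
  let b : Basis (Fin 2) T ρ.V := Module.finBasisOfFinrankEq T ρ.V ρ.finrank_eq
  let bk : Basis (Fin 2) k (k ⊗[T] ρ.V) := Algebra.TensorProduct.basis k b
  let bkb : Basis (Fin 2) kb (kb ⊗[k] (k ⊗[T] ρ.V)) := Algebra.TensorProduct.basis kb bk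
  let φ : T →+* kb := (algebraMap k kb).comp (algebraMap T k)
  have hφ : IsLocalHom φ := by
    refine ⟨fun a ha => ?_⟩
    have h2 : algebraMap k kb (algebraMap T k a) ≠ 0 := ha.ne_zero
    have h3 : IsLocalRing.residue T a ≠ 0 := fun h0 => h2 (by
      rw [IsLocalRing.ResidueField.algebraMap_eq, h0, map_zero])
    rw [Ne, IsLocalRing.residue_eq_zero_iff] at h3
    exact IsLocalRing.notMem_maximalIdeal.1 h3
  let e : Basis (Fin 2 × Fin 2) T (Module.End T ρ.V) := Basis.ofEquivFun (ur_tr_coord b)
  let e' : Basis (Fin 2 × Fin 2) kb (Module.End kb (kb ⊗[k] (k ⊗[T] ρ.V))) :=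
    Basis.ofEquivFun (ur_tr_coord bkb)
  let Φ : Module.End T ρ.V → Module.End kb (kb ⊗[k] (k ⊗[T] ρ.V)) :=
    fun f => (f.baseChange k).baseChange kb
  refine ur_tr_span_top_of_map φ e e' Φ ?_ _ ?_
  · rintro f ⟨i, j⟩
    rw [Basis.ofEquivFun_repr_apply, Basis.ofEquivFun_repr_apply, ur_tr_coord_apply,
      ur_tr_coord_apply]
    change LinearMap.toMatrix (Algebra.TensorProduct.basis kb bk)
      (Algebra.TensorProduct.basis kb bk) ((f.baseChange k).baseChange kb) i j = _
    rw [LinearMap.toMatrix_baseChange, Matrix.map_apply]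
    change algebraMap k kb (LinearMap.toMatrix (Algebra.TensorProduct.basis k b)
      (Algebra.TensorProduct.basis k b) (f.baseChange k) i j) = _
    rw [LinearMap.toMatrix_baseChange, Matrix.map_apply]
    rfl
  · have hnt : Nontrivial (ρ.residual.baseChange kb).V := by
      apply Module.nontrivial_of_finrank_pos (R := kb)
      rw [(ρ.residual.baseChange kb).finrank_eq]
      norm_num
    have hirr : ∀ W : Submodule kb (kb ⊗[k] (k ⊗[T] ρ.V)),
        (∀ g, W ≤ W.comap ((ρ.residual.baseChange kb).ρ g)) → W = ⊥ ∨ W = ⊤ :=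
      fun W hW => habs W (fun σ x hx => hW σ hx)
    have h1 := qg_span_eq_top (ρ := (ρ.residual.baseChange kb).ρ) hirr
    have h2 : Φ '' Set.range ρ.ρ = Set.range (ρ.residual.baseChange kb).ρ := by
      rw [← Set.range_comp]
      rfl
    rw [h2]
    exact h1

/-- **Trace rigidity**: if `tr ρ(g τ) = tr ρ(g)` for every `g` and the residual representation is
absolutely irreducible, then `ρ(τ) = 1`. -/
theorem ur_tr_eq_one (ρ : GaloisRepAdic T) (habs : ρ.residual.IsAbsolutelyIrreducible)
    (τ : AlgebraicClosure ℚ ≃ₐ[ℚ] AlgebraicClosure ℚ)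
    (h : ∀ g : AlgebraicClosure ℚ ≃ₐ[ℚ] AlgebraicClosure ℚ,
      LinearMap.trace T ρ.V (ρ.ρ (g * τ)) = LinearMap.trace T ρ.V (ρ.ρ g)) :
    ρ.ρ τ = 1 := by
  classical
  have key : ∀ X : Module.End T ρ.V, LinearMap.trace T ρ.V (X * (ρ.ρ τ - 1)) = 0 := by
    intro X
    have hX : X ∈ Submodule.span T (Set.range ρ.ρ) := by
      rw [ur_tr_span_eq_top ρ habs]
      trivial
    induction hX using Submodule.span_induction with
    | mem x hx =>
      obtain ⟨g, rfl⟩ := hx
      rw [mul_sub, mul_one, map_sub, ← map_mul, h, sub_self]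
    | zero => rw [zero_mul, map_zero]
    | add x y _ _ hx hy => rw [add_mul, map_add, hx, hy, add_zero]
    | smul a x _ hx => rw [smul_mul_assoc, map_smul, hx, smul_zero]
  let b : Basis (Fin 2) T ρ.V := Module.finBasisOfFinrankEq T ρ.V ρ.finrank_eq
  have h0 : LinearMap.toMatrix b b (ρ.ρ τ - 1) = 0 := by
    rw [Matrix.ext_iff_trace_mul_left]
    intro x
    have h1 := key (Matrix.toLin b b x)
    rw [LinearMap.trace_eq_matrix_trace T b, LinearMap.toMatrix_mul,
      LinearMap.toMatrix_toLin] at h1
    rw [h1, mul_zero, Matrix.trace_zero]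
  have h1 : ρ.ρ τ - 1 = 0 := (LinearMap.toMatrix b b).injective (by rw [h0, map_zero])
  exact sub_eq_zero.1 h1

end rep

end Fermat.Agent.JT3
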