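/-
[UNR] = S31 from the Tate package (helper19).  Leaf (U5): the main theorem.

`ur_main` : `D : pk_Tate p N S` (the Tate module of `J₀(N)` with its Galois action, the Hecke
operators and the Eichler-Shimura relation), `H` a Hecke-Galois datum of level `N` away from `S`
with coefficient ring `T`, and a ring homomorphism `lam` from the `ℤ_[p]`-algebra generated by the
Hecke operators on the Tate module to `T` with `lam (Tl ℓ) = π (T_ℓ)`.  Then the representation of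
`H` is unramified at every prime `q ∉ S`.

Proof (Hecke-valued traces + weak Chebotarev + trace rigidity): see the finding of helper19
`[UNR]`.  Prefix `ur_`.
-/
import Fermat.Agent.JT3.Unram.TateCongr
import Fermat.Agent.JT3.Unram.ArtinRees
import Fermat.Agent.JT3.Unram.LucasTrace
import Fermat.Agent.JT3.Unram.TraceRigid
import Fermat.Agent.JT3.Pack.Defs
import Fermat.Agent.JT3.Algebra.CycloAdic
import Fermat.Agent.WC.Final

set_option autoImplicit false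
set_option linter.style.haveILetI false

namespace Fermat.Agent.JT3

open IsLocalRing Polynomial

local notation "GQ" => (AlgebraicClosure ℚ ≃ₐ[ℚ] AlgebraicClosure ℚ)
local notation "Qbar" => AlgebraicClosure ℚ

/-- Instance-path repair: the default `Algebra ℚ (AlgebraicClosure ℚ)` is the division-ring one. -/
local instance ur_qbarIsAlgebraic : Algebra.IsAlgebraic ℚ (AlgebraicClosure ℚ) :=
  AlgebraicClosure.isAlgebraic ℚ

local instance ur_qbarIsAlgClosure : IsAlgClosure ℚ (AlgebraicClosure ℚ) :=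
  ⟨inferInstance, inferInstance⟩

section aux

/-- A finite normal field containing three given finite fields. -/
theorem ur_exists_normal (L₁ L₂ L₃ : IntermediateField ℚ Qbar) (h₁ : FiniteDimensional ℚ L₁)
    (h₂ : FiniteDimensional ℚ L₂) (h₃ : FiniteDimensional ℚ L₃) :
    ∃ L : IntermediateField ℚ Qbar, FiniteDimensional ℚ L ∧ Normal ℚ L ∧ L₁ ≤ L ∧ L₂ ≤ L ∧
      L₃ ≤ L := by
  haveI := h₁
  haveI := h₂
  haveI := h₃
  haveI : FiniteDimensional ℚ ↥(L₁ ⊔ L₂) := IntermediateField.finiteDimensional_sup L₁ L₂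
  haveI : FiniteDimensional ℚ ↥(L₁ ⊔ L₂ ⊔ L₃) :=
    IntermediateField.finiteDimensional_sup (L₁ ⊔ L₂) L₃
  haveI : Normal ℚ Qbar := IsAlgClosure.normal ℚ Qbar
  refine ⟨IntermediateField.normalClosure ℚ ↥(L₁ ⊔ L₂ ⊔ L₃) Qbar,
    normalClosure.is_finiteDimensional ℚ _ Qbar, normalClosure.normal ℚ _ Qbar, ?_, ?_, ?_⟩
  · exact (le_sup_left.trans le_sup_left).trans (IntermediateField.le_normalClosure _)
  · exact (le_sup_right.trans le_sup_left).trans (IntermediateField.le_normalClosure _)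
  · exact le_sup_right.trans (IntermediateField.le_normalClosure _)

end aux

section main

variable {p : ℕ} [Fact p.Prime] {N : ℕ} [NeZero N] {S : Finset ℕ}
  {𝒪 : Type} [CommRing 𝒪] [IsDomain 𝒪] [IsDiscreteValuationRing 𝒪]
  [IsAdicComplete (IsLocalRing.maximalIdeal 𝒪) 𝒪]
  {θ : CuspForm.heckeAlgebra N 2 (↑S : Set ℕ) →+* IsLocalRing.ResidueField 𝒪}
  {T : Type} [CommRing T] [IsLocalRing T] [IsNoetherianRing T]
  [IsAdicComplete (IsLocalRing.maximalIdeal T) T] [Algebra 𝒪 T] [IsLocalHom (algebraMap 𝒪 T)]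
  [Module.Finite 𝒪 T] [Module.Free 𝒪 T]

/-- `p` lies in the maximal ideal of `ℤ_[p]`. -/
theorem ur_p_mem : (p : ℤ_[p]) ∈ maximalIdeal ℤ_[p] := by
  rw [PadicInt.maximalIdeal_eq_span_p]
  exact Ideal.mem_span_singleton_self _

/-- Chebotarev approximation of one Galois element: an element `c` of the Hecke algebra on the
Tate module whose image in `T` is the trace of `H.ρ g` modulo `𝔪_T ^ n`, and which is the
Hecke-valued trace `ρ₀ g + ε g • ρ₀ g⁻¹` modulo `p ^ m`. -/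
theorem ur_approx (D : pk_Tate p N S)
    (H : CuspForm.HeckeGaloisRepDatum N (↑S : Set ℕ) 𝒪 θ T)
    (hpS : p ∈ S) (hNS : ∀ q : ℕ, q.Prime → q ∣ N → q ∈ S)
    (lam : ↥(Algebra.adjoin ℤ_[p] (pk_heckeSet N S D.Tl)) →+* T)
    (hlam : ∀ (ℓ : ℕ) (hℓ : ℓ.Prime) (hℓN : ¬ ℓ ∣ N) (hℓS : ℓ ∉ (↑S : Set ℕ)),
      lam ⟨D.Tl ℓ, pk_mem_heckeSet D.Tl hℓ hℓN hℓS⟩ =
        H.π (CuspForm.heckeAlgebra.T hℓ hℓN hℓS))
    (g : GQ) (n m : ℕ) :
    ∃ c : ↥(Algebra.adjoin ℤ_[p] (pk_heckeSet N S D.Tl)),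
      LinearMap.trace T H.ρ.V (H.ρ.ρ g) - lam c ∈ maximalIdeal T ^ n ∧
      gcl_Small (maximalIdeal ℤ_[p] ^ m)
        ((c : Module.End ℤ_[p] D.Tp) - ur_w D.ρ (cya_eps p ℤ_[p] ur_p_mem) g) := by
  obtain ⟨L₁, hL₁, h1⟩ := H.ρ.isAdicContinuous n
  obtain ⟨L₂, hL₂, h2⟩ := D.cont m
  obtain ⟨L₃, hL₃, h3⟩ := cya_eps_continuous p ℤ_[p] ur_p_mem m
  obtain ⟨L, hLfd, hLn, h1L, h2L, h3L⟩ := ur_exists_normal L₁ L₂ L₃ hL₁ hL₂ hL₃
  haveI := hLfd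
  haveI := hLn
  obtain ⟨ℓ, A, φ, k, hℓ, hℓS, hA, hφ, hk⟩ := Fermat.Agent.WC.wc_main L S g
  have hℓN : ¬ ℓ ∣ N := fun h => hℓS (hNS ℓ hℓ h)
  have hℓp : ℓ ≠ p := fun h => hℓS (h ▸ hpS)
  have hℓS' : ℓ ∉ (↑S : Set ℕ) := fun h => hℓS (Finset.mem_coe.mp h)
  -- the error term `δ`
  obtain ⟨δ, hgδ, hδL, hδL'⟩ : ∃ δ : GQ, φ ^ k = g * δ ∧ (∀ x ∈ L, δ x = x) ∧
      (∀ x ∈ L, δ⁻¹ x = x) := by
    refine ⟨g⁻¹ * φ ^ k, (mul_inv_cancel_left g (φ ^ k)).symm, ?_, ?_⟩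
    · intro x hx
      rw [AlgEquiv.mul_apply, hk x hx]
      show (g⁻¹ * g) x = x
      rw [inv_mul_cancel]
      rfl
    · intro x hx
      rw [mul_inv_rev, inv_inv, AlgEquiv.mul_apply]
      have h5 : g x = (φ ^ k) x := (hk x hx).symm
      rw [h5]
      show ((φ ^ k)⁻¹ * (φ ^ k)) x = x
      rw [inv_mul_cancel]
      rfl
  -- the `T`-side
  have hT1 : LinearMap.trace T H.ρ.V (H.ρ.ρ (φ ^ k)) =
      gcl_luc (H.π (CuspForm.heckeAlgebra.T hℓ hℓN hℓS')) (ℓ : T) k := by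
    rw [map_pow]
    exact ur_lt_trace_pow H.ρ.finrank_eq _ _ _ (H.charpoly_frob ℓ hℓ hℓN hℓS' A hA φ hφ) k
  have hT2 : LinearMap.trace T H.ρ.V (H.ρ.ρ (g * δ)) - LinearMap.trace T H.ρ.V (H.ρ.ρ g) ∈
      maximalIdeal T ^ n := by
    rw [← map_sub, map_mul]
    have h5 : H.ρ.ρ g * H.ρ.ρ δ - H.ρ.ρ g = H.ρ.ρ g * (H.ρ.ρ δ - 1) := by rw [mul_sub, mul_one]
    rw [h5]
    refine ur_lt_trace_small _ _ ?_
    have hs : gcl_Small (maximalIdeal T ^ n) (H.ρ.ρ δ - 1) := fun v => by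
      rw [LinearMap.sub_apply, Module.End.one_apply]
      exact h1 δ (fun x hx => hδL x (h1L hx)) v
    exact hs.mul_left _
  -- the Tate side
  have hW1 : ur_w D.ρ (cya_eps p ℤ_[p] ur_p_mem) (φ ^ k) =
      ur_luc (D.Tl ℓ) ((ℓ : ℤ_[p]) • (1 : Module.End ℤ_[p] D.Tp)) k :=
    ur_w_frob_pow D.ρ (cya_eps p ℤ_[p] ur_p_mem) φ (D.Tl ℓ) (ℓ : ℤ_[p])
      (cya_eps_frob p ℤ_[p] ur_p_mem hℓ hℓp A hA φ hφ)
      (D.frob ℓ ⟨hℓ, hℓN, hℓS'⟩ A hA φ hφ) k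
  have hW2 : gcl_Small (maximalIdeal ℤ_[p] ^ m)
      (ur_w D.ρ (cya_eps p ℤ_[p] ur_p_mem) (g * δ) - ur_w D.ρ (cya_eps p ℤ_[p] ur_p_mem) g) := by
    refine ur_w_congr _ D.ρ _ g δ (fun v => ?_) (fun v => ?_) (h3 δ (fun x hx => hδL x (h3L hx)))
    · rw [LinearMap.sub_apply, Module.End.one_apply]
      exact h2 δ (fun x hx => hδL x (h2L hx)) v
    · rw [LinearMap.sub_apply, Module.End.one_apply]
      exact h2 δ⁻¹ (fun x hx => hδL' x (h2L hx)) v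
  -- the element of the Hecke algebra
  refine ⟨ur_luc ⟨D.Tl ℓ, pk_mem_heckeSet D.Tl hℓ hℓN hℓS'⟩
    ((ℓ : ℕ) : ↥(Algebra.adjoin ℤ_[p] (pk_heckeSet N S D.Tl))) k, ?_, ?_⟩
  · rw [ur_luc_map lam, hlam ℓ hℓ hℓN hℓS', map_natCast, ur_luc_eq_gcl, ← hT1, hgδ]
    have h5 := (Ideal.neg_mem_iff _).mpr hT2
    rwa [neg_sub] at h5
  · have h5 := ur_luc_map (Algebra.adjoin ℤ_[p] (pk_heckeSet N S D.Tl)).val.toRingHom
      ⟨D.Tl ℓ, pk_mem_heckeSet D.Tl hℓ hℓN hℓS'⟩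
      ((ℓ : ℕ) : ↥(Algebra.adjoin ℤ_[p] (pk_heckeSet N S D.Tl))) k
    have h6 : (Algebra.adjoin ℤ_[p] (pk_heckeSet N S D.Tl)).val.toRingHom
        ((ℓ : ℕ) : ↥(Algebra.adjoin ℤ_[p] (pk_heckeSet N S D.Tl))) =
        (ℓ : ℤ_[p]) • (1 : Module.End ℤ_[p] D.Tp) := by
      rw [map_natCast, Nat.cast_smul_eq_nsmul, nsmul_one]
    rw [h6] at h5
    have h7 : ((ur_luc ⟨D.Tl ℓ, pk_mem_heckeSet D.Tl hℓ hℓN hℓS'⟩
        ((ℓ : ℕ) : ↥(Algebra.adjoin ℤ_[p] (pk_heckeSet N S D.Tl))) k :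
          ↥(Algebra.adjoin ℤ_[p] (pk_heckeSet N S D.Tl))) : Module.End ℤ_[p] D.Tp) =
        ur_luc (D.Tl ℓ) ((ℓ : ℤ_[p]) • (1 : Module.End ℤ_[p] D.Tp)) k := h5
    rw [h7, ← hW1, hgδ]
    exact hW2

/-- The congruence of traces at one level. -/
theorem ur_trace_congr (D : pk_Tate p N S)
    (H : CuspForm.HeckeGaloisRepDatum N (↑S : Set ℕ) 𝒪 θ T)
    (hpT : (p : T) ∈ maximalIdeal T) (hpS : p ∈ S)
    (hNS : ∀ q : ℕ, q.Prime → q ∣ N → q ∈ S)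
    (lam : ↥(Algebra.adjoin ℤ_[p] (pk_heckeSet N S D.Tl)) →+* T)
    (hlam : ∀ (ℓ : ℕ) (hℓ : ℓ.Prime) (hℓN : ¬ ℓ ∣ N) (hℓS : ℓ ∉ (↑S : Set ℕ)),
      lam ⟨D.Tl ℓ, pk_mem_heckeSet D.Tl hℓ hℓN hℓS⟩ =
        H.π (CuspForm.heckeAlgebra.T hℓ hℓN hℓS))
    (g g' : GQ) (hρ : D.ρ g' = D.ρ g) (hρ' : D.ρ g'⁻¹ = D.ρ g⁻¹)
    (hε : cya_eps p ℤ_[p] ur_p_mem g' = cya_eps p ℤ_[p] ur_p_mem g) (n : ℕ) :
    LinearMap.trace T H.ρ.V (H.ρ.ρ g') - LinearMap.trace T H.ρ.V (H.ρ.ρ g) ∈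
      maximalIdeal T ^ n := by
  have hlam' : ∀ x ∈ maximalIdeal ℤ_[p],
      lam (algebraMap ℤ_[p] ↥(Algebra.adjoin ℤ_[p] (pk_heckeSet N S D.Tl)) x) ∈
        maximalIdeal T := by
    intro x hx
    rw [PadicInt.maximalIdeal_eq_span_p, Ideal.mem_span_singleton'] at hx
    obtain ⟨y, rfl⟩ := hx
    rw [map_mul, map_mul, map_natCast, map_natCast]
    exact Ideal.mul_mem_left _ _ hpT
  obtain ⟨m, hm⟩ :=
    ur_ar_transport (Algebra.adjoin ℤ_[p] (pk_heckeSet N S D.Tl)) lam hlam' n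
  obtain ⟨c, hc1, hc2⟩ := ur_approx D H hpS hNS lam hlam g n m
  obtain ⟨c', hc1', hc2'⟩ := ur_approx D H hpS hNS lam hlam g' n m
  have hw : ur_w D.ρ (cya_eps p ℤ_[p] ur_p_mem) g' = ur_w D.ρ (cya_eps p ℤ_[p] ur_p_mem) g := by
    unfold ur_w
    rw [hρ, hρ', hε]
  have hcc : gcl_Small (maximalIdeal ℤ_[p] ^ m)
      (((c' - c : ↥(Algebra.adjoin ℤ_[p] (pk_heckeSet N S D.Tl))) :
        Module.End ℤ_[p] D.Tp)) := by
    have h5 : (((c' - c : ↥(Algebra.adjoin ℤ_[p] (pk_heckeSet N S D.Tl))) :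
        Module.End ℤ_[p] D.Tp)) =
        ((c' : Module.End ℤ_[p] D.Tp) - ur_w D.ρ (cya_eps p ℤ_[p] ur_p_mem) g') -
          ((c : Module.End ℤ_[p] D.Tp) - ur_w D.ρ (cya_eps p ℤ_[p] ur_p_mem) g) := by
      rw [hw, sub_sub_sub_cancel_right]
      rfl
    rw [h5]
    exact hc2'.sub hc2
  have h4 := hm _ hcc
  rw [map_sub] at h4
  have h6 : LinearMap.trace T H.ρ.V (H.ρ.ρ g') - LinearMap.trace T H.ρ.V (H.ρ.ρ g) =
      (LinearMap.trace T H.ρ.V (H.ρ.ρ g') - lam c') + (lam c' - lam c) -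
        (LinearMap.trace T H.ρ.V (H.ρ.ρ g) - lam c) := by ring
  rw [h6]
  exact Ideal.sub_mem _ (Ideal.add_mem _ hc1' h4) hc1

/-- **[UNR] main theorem**: a Hecke-Galois datum of level `N` away from `S` whose Hecke character
is carried by the Tate package is unramified at every prime outside `S`. -/
theorem ur_main (D : pk_Tate p N S)
    (H : CuspForm.HeckeGaloisRepDatum N (↑S : Set ℕ) 𝒪 θ T)
    (hpT : (p : T) ∈ maximalIdeal T) (hpS : p ∈ S)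
    (hNS : ∀ q : ℕ, q.Prime → q ∣ N → q ∈ S)
    (lam : ↥(Algebra.adjoin ℤ_[p] (pk_heckeSet N S D.Tl)) →+* T)
    (hlam : ∀ (ℓ : ℕ) (hℓ : ℓ.Prime) (hℓN : ¬ ℓ ∣ N) (hℓS : ℓ ∉ (↑S : Set ℕ)),
      lam ⟨D.Tl ℓ, pk_mem_heckeSet D.Tl hℓ hℓN hℓS⟩ =
        H.π (CuspForm.heckeAlgebra.T hℓ hℓN hℓS))
    (q : ℕ) (hq : q.Prime) (hqS : q ∉ S) : H.ρ.IsUnramifiedAt q := by
  intro P hP τ hτ
  have hqN : ¬ q ∣ N := fun h => hqS (hNS q hq h)
  have hqp : q ≠ p := fun h => hqS (h ▸ hpS)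
  have hτ1 : D.ρ τ = 1 := D.unram q hq hqN hqp P hP τ hτ
  have hτ2 : D.ρ τ⁻¹ = 1 := D.unram q hq hqN hqp P hP τ⁻¹ (inv_mem hτ)
  have hτ3 : cya_eps p ℤ_[p] ur_p_mem τ = 1 :=
    cya_eps_inertia p ℤ_[p] ur_p_mem hq hqp P hP hτ
  refine ur_tr_eq_one H.ρ H.residual_absIrr τ fun g => ?_
  have key : ∀ n, LinearMap.trace T H.ρ.V (H.ρ.ρ (g * τ)) -
      LinearMap.trace T H.ρ.V (H.ρ.ρ g) ∈ maximalIdeal T ^ n := fun n =>
    ur_trace_congr D H hpT hpS hNS lam hlam g (g * τ) (by rw [map_mul, hτ1, mul_one])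
      (by rw [mul_inv_rev, map_mul, hτ2, one_mul]) (by rw [map_mul, hτ3, mul_one]) n
  have hH : IsHausdorff (maximalIdeal T) T := inferInstance
  rw [← sub_eq_zero]
  refine hH.haus' _ fun n => ?_
  rw [SModEq.zero, smul_eq_mul, Ideal.mul_top]
  exact key n

end main

end Fermat.Agent.JT3
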