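/-
[UNR] = S31 from the Tate package (helper19).  Final wiring.

* `ur_EigenGen D` : the general-target form of the field `pk_Tate.eigen`: every character of the
  weight-2 Hecke algebra with values in ANY commutative `ℤ_[p]`-algebra `R` (no domain, no
  characteristic hypothesis) extends to the `ℤ_[p]`-algebra generated by the Hecke operators on the
  Tate module.  (Producers: `pkh_eigen_gen` / `pkf_extend` with `χ := H.π`.)
* `ur_S31_of` : the conclusion of S31 from `D : pk_Tate p N S` and `ur_EigenGen D`.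
Prefix `ur_`.
-/
import Fermat.Agent.JT3.Unram.Main

set_option autoImplicit false

namespace Fermat.Agent.JT3

open IsLocalRing

/-- Every character of the Hecke algebra with values in a commutative `ℤ_[p]`-algebra extends to
the Hecke algebra of the Tate module. -/
def ur_EigenGen {p : ℕ} [Fact p.Prime] {N : ℕ} [NeZero N] {S : Finset ℕ} (D : pk_Tate p N S) :
    Prop :=
  ∀ (R : Type) [CommRing R] [Algebra ℤ_[p] R]
    (χ : CuspForm.heckeAlgebra N 2 (↑S : Set ℕ) →+* R),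
    ∃ χ₀ : ↥(Algebra.adjoin ℤ_[p] (pk_heckeSet N S D.Tl)) →+* R,
      ∀ (ℓ : ℕ) (hℓ : ℓ.Prime) (hℓN : ¬ ℓ ∣ N) (hℓS : ℓ ∉ (↑S : Set ℕ)),
        χ₀ ⟨D.Tl ℓ, pk_mem_heckeSet D.Tl hℓ hℓN hℓS⟩ = χ (CuspForm.heckeAlgebra.T hℓ hℓN hℓS)

variable {p : ℕ} {N : ℕ} [NeZero N] {S : Finset ℕ}
  {𝒪 : Type} [CommRing 𝒪] [IsDomain 𝒪] [IsDiscreteValuationRing 𝒪]
  [IsAdicComplete (IsLocalRing.maximalIdeal 𝒪) 𝒪]
  {θ : CuspForm.heckeAlgebra N 2 (↑S : Set ℕ) →+* IsLocalRing.ResidueField 𝒪}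
  {T : Type} [CommRing T] [IsLocalRing T] [IsNoetherianRing T]
  [IsAdicComplete (IsLocalRing.maximalIdeal T) T] [Algebra 𝒪 T] [IsLocalHom (algebraMap 𝒪 T)]
  [Module.Finite 𝒪 T] [Module.Free 𝒪 T]

/-- **S31 from the Tate package**: the statement of S31 for `p N S`, given the Tate package of
`J₀(N)` with the general eigen property. -/
theorem ur_S31_of [Fact p.Prime] (D : pk_Tate p N S) (hD : ur_EigenGen D)
    (hp𝒪 : (p : 𝒪) ∈ IsLocalRing.maximalIdeal 𝒪) (hpS : p ∈ S)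
    (hNS : ∀ q : ℕ, q.Prime → q ∣ N → q ∈ S)
    (H : CuspForm.HeckeGaloisRepDatum N (↑S : Set ℕ) 𝒪 θ T)
    (q : ℕ) (hq : q.Prime) (hqS : q ∉ S) :
    H.ρ.IsUnramifiedAt q := by
  have hpT : (p : T) ∈ maximalIdeal T := by
    have h1 := map_nonunit (algebraMap 𝒪 T) (p : 𝒪) hp𝒪
    rwa [map_natCast] at h1
  let _ : Algebra ℤ_[p] T := (cya_padicHom p T hpT).toAlgebra
  obtain ⟨lam, hlam⟩ := hD T H.π
  exact ur_main D H hpT hpS hNS lam hlam q hq hqS

/-- What the Jacobian side has to produce for S31 (and, forgetting `ur_EigenGen`, for S30): the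
Tate package with the general eigen property, for every `p N S` with `p ∈ S` and the primes of
`N` in `S`. -/
def ur_TateInput : Prop :=
  ∀ (p : ℕ) [Fact p.Prime] (N : ℕ) [NeZero N] (S : Finset ℕ), p ∈ S →
    (∀ q : ℕ, q.Prime → q ∣ N → q ∈ S) → ∃ D : pk_Tate p N S, ur_EigenGen D

/-- **S31** (verbatim conclusion) from `ur_TateInput`. -/
theorem ur_S31 (hT : ur_TateInput) (hp : p.Prime)
    (hp𝒪 : (p : 𝒪) ∈ IsLocalRing.maximalIdeal 𝒪) (hpS : p ∈ S)
    (hNS : ∀ q : ℕ, q.Prime → q ∣ N → q ∈ S)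
    (H : CuspForm.HeckeGaloisRepDatum N (↑S : Set ℕ) 𝒪 θ T)
    (q : ℕ) (hq : q.Prime) (hqS : q ∉ S) :
    H.ρ.IsUnramifiedAt q := by
  have : Fact p.Prime := ⟨hp⟩
  obtain ⟨D, hD⟩ := hT p N S hpS hNS
  exact ur_S31_of D hD hp𝒪 hpS hNS H q hq hqS

end Fermat.Agent.JT3
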